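/-
S55 / engine E1 / G-ADAPTER leaf LVL (helper594), part 1.

A tower level `L : Tow.Level S` (frozen `Spec/Tower.lean`) as INPUT of layer G
(`G/Defs.lean`, `G/Spec.lean`): the field `L.F` is a number field, Galois over `ℚ`, and the
finite-level group `L.Gal = G_ℚ ⧸ U_F` acts on it faithfully by field automorphisms, with
`IsGaloisGroup L.Gal ℚ L.F`.

Conventions: everything is a `theorem`/`def`; the instances are `scoped`
(activate with `open Fermat.Agent.S55.E1.H594`).  No `sorry`.
-/
import Fermat.Agent.S55.Spec.Tower
import Fermat.Agent.S55.Bridge.Level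

set_option autoImplicit false
set_option linter.unusedSectionVars false
set_option linter.style.haveILetI false

namespace Fermat.Agent.S55.E1.H594

open Fermat.Agent.S55 Fermat.Agent.S55.Tow Fermat.Agent.S55.Bridge NumberField

attribute [local instance] isAlgebraic_Qbar isGalois_Qbar

noncomputable section

variable {S : Finset Nat.Primes} (L : Level S)

/-- A level is finite over `ℚ`. -/
theorem level_finiteDimensional : FiniteDimensional ℚ L.F := L.unram.1

/-- A level is Galois over `ℚ`. -/
theorem level_isGalois : IsGalois ℚ L.F :=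
  (InfiniteGalois.normal_iff_isGalois L.F).1 L.normalU

/-- A level is a number field. -/
theorem level_numberField : NumberField L.F :=
  haveI := level_finiteDimensional L
  { to_charZero := inferInstance, to_finiteDimensional := inferInstance }

scoped instance instFiniteDimensionalLevel : FiniteDimensional ℚ L.F := level_finiteDimensional L
scoped instance instIsGaloisLevel : IsGalois ℚ L.F := level_isGalois L
scoped instance instNumberFieldLevel : NumberField L.F := level_numberField L

/-- Restriction `G_ℚ → Gal(F/ℚ)`. -/
def levelRestrict : GQ →* (L.F ≃ₐ[ℚ] L.F) := AlgEquiv.restrictNormalHom L.F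

theorem levelRestrict_apply (σ : GQ) (x : L.F) :
    ((levelRestrict L σ x : L.F) : Qbar) = σ (x : Qbar) :=
  AlgEquiv.restrictNormal_commutes σ L.F x

theorem levelRestrict_ker : (levelRestrict L).ker = L.U := by
  ext σ
  rw [MonoidHom.mem_ker]
  change _ ↔ σ ∈ L.F.fixingSubgroup
  rw [IntermediateField.mem_fixingSubgroup_iff]
  constructor
  · intro h x hx
    have := levelRestrict_apply L σ ⟨x, hx⟩
    rw [h] at this
    exact this.symm
  · intro h
    ext x
    rw [levelRestrict_apply]
    exact h x x.2

theorem levelRestrict_surjective : Function.Surjective (levelRestrict L) :=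
  AlgEquiv.restrictNormalHom_surjective (F := ℚ) (K₁ := L.F) Qbar

/-- The isomorphism `L.Gal = G_ℚ ⧸ U_F ≃* Gal(F/ℚ)`. -/
def levelGalEquiv : L.Gal ≃* (L.F ≃ₐ[ℚ] L.F) :=
  (QuotientGroup.quotientMulEquivOfEq (levelRestrict_ker L).symm).trans
    (QuotientGroup.quotientKerEquivOfSurjective (levelRestrict L) (levelRestrict_surjective L))

theorem levelGalEquiv_mk (σ : GQ) :
    levelGalEquiv L (QuotientGroup.mk σ : L.Gal) = levelRestrict L σ := rfl

/-- The action of `L.Gal` on the field `L.F` (a definition; `scoped instance` below). -/
@[reducible] def levelAction : MulSemiringAction L.Gal L.F :=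
  MulSemiringAction.compHom L.F (levelGalEquiv L).toMonoidHom

scoped instance instMulSemiringActionLevel : MulSemiringAction L.Gal L.F := levelAction L

theorem level_smul_def (g : L.Gal) (x : L.F) : g • x = levelGalEquiv L g x := rfl

theorem level_mk_smul (σ : GQ) (x : L.F) :
    (((QuotientGroup.mk σ : L.Gal) • x : L.F) : Qbar) = σ (x : Qbar) :=
  levelRestrict_apply L σ x

theorem level_faithfulSMul : FaithfulSMul L.Gal L.F :=
  ⟨fun H => (levelGalEquiv L).injective (AlgEquiv.ext H)⟩

scoped instance instFaithfulSMulLevel : FaithfulSMul L.Gal L.F := level_faithfulSMul L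

theorem level_isGaloisGroup : IsGaloisGroup L.Gal ℚ L.F :=
  IsGaloisGroup.of_mulEquiv (levelGalEquiv L) (fun _ _ => rfl)

scoped instance instIsGaloisGroupLevel : IsGaloisGroup L.Gal ℚ L.F := level_isGaloisGroup L

theorem level_finite_gal : Finite L.Gal :=
  Finite.of_equiv _ (levelGalEquiv L).symm.toEquiv

scoped instance instFiniteLevelGal : Finite L.Gal := level_finite_gal L

theorem level_card_gal : Nat.card L.Gal = Module.finrank ℚ L.F := by
  rw [Nat.card_congr (levelGalEquiv L).toEquiv]
  exact IsGalois.card_aut_eq_finrank ℚ L.F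

end

end Fermat.Agent.S55.E1.H594
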