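/-
S55 / engine E1 / G-ADAPTER leaf LVL (helper594), part 3.

The tower module `Tow.Level.units L` (= the `U_F`-invariants of `ℚ̄ˣ`, frozen `Spec/Tower.lean`)
is the layer-G module `G.LRep L.Gal L.F` (= `Fˣ`, `G/Defs.lean`):
`levelUnitsIso : G.LRep L.Gal L.F ≅ Tow.Level.units L` in `Rep ℤ L.Gal`.
No `sorry`.
-/
import Fermat.Agent.S55.E1.H594.LevelField
import Fermat.Agent.S55.G.Defs

set_option autoImplicit false
set_option linter.unusedSectionVars false
set_option linter.style.haveILetI false

namespace Fermat.Agent.S55.E1.H594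

open Fermat.Agent.S55 Fermat.Agent.S55.Tow Fermat.Agent.S55.Bridge NumberField

attribute [local instance] isAlgebraic_Qbar isGalois_Qbar

noncomputable section

variable {S : Finset Nat.Primes} (L : Level S)

/-- An element of `ℚ̄` fixed by `U_F` lies in `F`. -/
theorem mem_level_of_fixed (x : Qbar) (hx : ∀ s ∈ L.U, s x = x) : x ∈ L.F := by
  have h := InfiniteGalois.fixedField_fixingSubgroup L.F
  rw [← h]
  intro s
  exact hx s.1 s.2

/-- An element of `F` is fixed by `U_F`. -/
theorem fixed_of_mem_level (x : Qbar) (hx : x ∈ L.F) (s : GQ) (hs : s ∈ L.U) : s x = x :=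
  (IntermediateField.mem_fixingSubgroup_iff L.F s).1 hs x hx

/-- The `ℤ`-module of `U_F`-invariants of `ℚ̄ˣ` (the carrier of `Level.units L`). -/
abbrev levelInv : Submodule ℤ (Additive Qbarˣ) :=
  Representation.invariants (unitsQbar.ρ.comp L.U.subtype)

theorem mem_levelInv_iff (u : Additive Qbarˣ) :
    u ∈ levelInv L ↔ ∀ s ∈ L.U, s ((u.toMul : Qbarˣ) : Qbar) = ((u.toMul : Qbarˣ) : Qbar) := by
  constructor
  · intro h s hs
    have := h ⟨s, hs⟩
    exact congrArg (fun v : Additive Qbarˣ => ((v.toMul : Qbarˣ) : Qbar)) this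
  · intro h s
    apply Additive.toMul.injective
    apply Units.ext
    exact h s.1 s.2

/-- The element of `ℚ̄` underlying an invariant unit. -/
def levelInvVal (u : levelInv L) : Qbar :=
  ((Additive.toMul (α := Qbarˣ) (u.1 : Additive Qbarˣ) : Qbarˣ) : Qbar)

theorem levelInvVal_injective : Function.Injective (levelInvVal L) := by
  intro u v h
  apply Subtype.ext
  apply Additive.toMul.injective
  apply Units.ext
  exact h

theorem levelInvVal_mem (u : levelInv L) : levelInvVal L u ∈ L.F :=
  mem_level_of_fixed L _ ((mem_levelInv_iff L u.1).1 u.2)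

/-- The inclusion `Fˣ → (ℚ̄ˣ)^{U_F}`. -/
def levelUnitsFwd : Additive (L.F)ˣ →+ levelInv L where
  toFun u := ⟨Additive.ofMul (Units.map ((algebraMap L.F Qbar : L.F →+* Qbar) : L.F →* Qbar)
      u.toMul), by
    rw [mem_levelInv_iff]
    intro s hs
    exact fixed_of_mem_level L _ (u.toMul : (L.F)ˣ).1.2 s hs⟩
  map_zero' := by
    apply Subtype.ext
    apply Additive.toMul.injective
    apply Units.ext
    simp
  map_add' u v := by
    apply Subtype.ext
    apply Additive.toMul.injective
    apply Units.ext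
    simp

theorem coe_levelUnitsFwd (u : Additive (L.F)ˣ) :
    levelInvVal L (levelUnitsFwd L u) = (((u.toMul : (L.F)ˣ) : L.F) : Qbar) := rfl

theorem levelUnitsFwd_injective : Function.Injective (levelUnitsFwd L) := by
  intro u v h
  apply Additive.toMul.injective
  apply Units.ext
  apply Subtype.ext
  have := congrArg (fun w : levelInv L => (((w.1).toMul : Qbarˣ) : Qbar)) h
  exact this

theorem levelUnitsFwd_surjective : Function.Surjective (levelUnitsFwd L) := by
  rintro ⟨u, hu⟩
  rw [mem_levelInv_iff] at hu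
  have h1 : ((u.toMul : Qbarˣ) : Qbar) ∈ L.F := mem_level_of_fixed L _ hu
  have h0 : (⟨((u.toMul : Qbarˣ) : Qbar), h1⟩ : L.F) ≠ 0 := by
    intro h
    have := congrArg (fun y : L.F => (y : Qbar)) h
    exact (u.toMul : Qbarˣ).ne_zero this
  refine ⟨Additive.ofMul (Units.mk0 ⟨((u.toMul : Qbarˣ) : Qbar), h1⟩ h0), ?_⟩
  apply Subtype.ext
  apply Additive.toMul.injective
  apply Units.ext
  rfl

/-- `Fˣ ≃ (ℚ̄ˣ)^{U_F}` as `ℤ`-modules. -/
def levelUnitsLinearEquiv : Additive (L.F)ˣ ≃ₗ[ℤ] levelInv L :=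
  (AddEquiv.ofBijective (levelUnitsFwd L)
    ⟨levelUnitsFwd_injective L, levelUnitsFwd_surjective L⟩).toIntLinearEquiv

theorem levelUnitsLinearEquiv_apply (u : Additive (L.F)ˣ) :
    levelUnitsLinearEquiv L u = levelUnitsFwd L u := rfl

/-- The action of `mk σ` on the invariants is the action of `σ`. -/
theorem coe_quotientToInvariants_mk (σ : GQ) (u : levelInv L) :
    levelInvVal L ((unitsQbar.ρ.quotientToInvariants L.U) (QuotientGroup.mk σ : L.Gal) u) =
      σ (levelInvVal L u) := rfl

/-- Equivariance of `Fˣ → (ℚ̄ˣ)^{U_F}`. -/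
theorem levelUnitsFwd_equivariant (g : L.Gal) (u : Additive (L.F)ˣ) :
    levelUnitsFwd L (G.lRepr L.Gal L.F g u) =
      (unitsQbar.ρ.quotientToInvariants L.U) g (levelUnitsFwd L u) := by
  induction g using QuotientGroup.induction_on with
  | H σ =>
    apply levelInvVal_injective
    rw [coe_quotientToInvariants_mk, coe_levelUnitsFwd, coe_levelUnitsFwd, G.coe_lRepr_apply]
    exact level_mk_smul L σ _

/-- `Fˣ ≃ (ℚ̄ˣ)^{U_F}` as representations of `L.Gal`. -/
def levelUnitsEquiv :
    (G.lRepr L.Gal L.F).Equiv (unitsQbar.ρ.quotientToInvariants L.U) :=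
  Representation.Equiv.mk (levelUnitsLinearEquiv L) (fun g =>
    LinearMap.ext fun u => levelUnitsFwd_equivariant L g u)

/-- **LVL (4)**: the tower module `Level.units L` is the layer-G module `Fˣ`. -/
def levelUnitsIso : G.LRep L.Gal L.F ≅ Level.units L :=
  Rep.mkIso (levelUnitsEquiv L)

theorem levelUnitsIso_hom_apply (u : Additive (L.F)ˣ) :
    (levelUnitsIso L).hom.hom u = levelUnitsFwd L u := rfl

theorem coe_levelUnitsIso_hom_apply (u : Additive (L.F)ˣ) :
    levelInvVal L ((levelUnitsIso L).hom.hom u) = (((u.toMul : (L.F)ˣ) : L.F) : Qbar) := rfl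

end

end Fermat.Agent.S55.E1.H594
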