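/-
S55 / engine E1 / G-ADAPTER leaf LVL (helper594), part 2.

The ramification hypothesis of layer G (`G.IsUnramOut`, `G/Spec.lean`) for a tower level:
`level_isUnramOut : G.IsUnramOut S L.Gal L.F`, deduced from the Prelude hypothesis
`L.unram : L.F.IsUnramifiedOutside S` through B10 (`Bridge/H594/Unram.lean`).
Also: `G.IsUnramOut` passes to any group acting through a homomorphism (subgroups).
No `sorry`.
-/
import Fermat.Agent.S55.E1.H594.LevelField
import Fermat.Agent.S55.Bridge.H594.Unram
import Fermat.Agent.S55.G.Spec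

set_option autoImplicit false
set_option linter.unusedSectionVars false
set_option linter.style.haveILetI false

namespace Fermat.Agent.S55.E1.H594

open Fermat.Agent.S55 Fermat.Agent.S55.Tow Fermat.Agent.S55.Bridge NumberField
open IsDedekindDomain

attribute [local instance] isAlgebraic_Qbar isGalois_Qbar

noncomputable section

/-- Every finite prime of a number field contains a rational prime. -/
theorem exists_prime_natCast_mem {K : Type} [Field K] [NumberField K]
    (w : HeightOneSpectrum (𝓞 K)) : ∃ q : Nat.Primes, ((q : ℕ) : 𝓞 K) ∈ w.asIdeal := by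
  haveI : w.asIdeal.IsMaximal := w.isMaximal
  letI : Field (𝓞 K ⧸ w.asIdeal) := Ideal.Quotient.field w.asIdeal
  haveI : Finite (𝓞 K ⧸ w.asIdeal) := Ideal.finiteQuotientOfFreeOfNeBot w.asIdeal w.ne_bot
  have hq : (ringChar (𝓞 K ⧸ w.asIdeal)).Prime :=
    CharP.char_is_prime (𝓞 K ⧸ w.asIdeal) (ringChar (𝓞 K ⧸ w.asIdeal))
  refine ⟨⟨ringChar (𝓞 K ⧸ w.asIdeal), hq⟩, ?_⟩
  rw [← Ideal.Quotient.eq_zero_iff_mem, map_natCast]
  exact CharP.cast_eq_zero _ _

/-- `G.IsUnramOut` in terms of rational primes: it suffices to control the primes of `𝓞 K`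
containing a rational prime `q ∉ S`. -/
theorem isUnramOut_of_forall_prime (S : Finset Nat.Primes) (Γ K : Type) [Group Γ] [Field K]
    [NumberField K] [MulSemiringAction Γ K]
    (h : ∀ q : Nat.Primes, q ∉ S → ∀ P : Ideal (𝓞 K), P.IsPrime → ((q : ℕ) : 𝓞 K) ∈ P →
      ∀ g : Γ, (∀ x : 𝓞 K, g • x - x ∈ P) → ∀ x : K, g • x = x) :
    G.IsUnramOut S Γ K := by
  intro w hw g hg x
  obtain ⟨q, hq⟩ := exists_prime_natCast_mem w
  exact h q (fun hqS => hw ⟨q, hqS, hq⟩) w.asIdeal w.isPrime hq g hg x

/-- `G.IsUnramOut` passes to a group acting through a homomorphism `φ : Γ' → Γ`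
(e.g. a subgroup). -/
theorem isUnramOut_of_hom (S : Finset Nat.Primes) (Γ Γ' K : Type) [Group Γ] [Group Γ'] [Field K]
    [NumberField K] [MulSemiringAction Γ K] [MulSemiringAction Γ' K] (φ : Γ' →* Γ)
    (hφ : ∀ (g : Γ') (x : K), g • x = φ g • x) (h : G.IsUnramOut S Γ K) :
    G.IsUnramOut S Γ' K := by
  intro w hw g hg x
  rw [hφ]
  refine h w hw (φ g) (fun y => ?_) x
  have : φ g • y = g • y := Subtype.ext (hφ g (y : K)).symm
  rw [this]
  exact hg y

/-- `G.IsUnramOut` for a subgroup. -/
theorem isUnramOut_subgroup (S : Finset Nat.Primes) (Γ K : Type) [Group Γ] [Field K]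
    [NumberField K] [MulSemiringAction Γ K] (H : Subgroup Γ) (h : G.IsUnramOut S Γ K) :
    G.IsUnramOut S H K :=
  isUnramOut_of_hom S Γ H K H.subtype (fun _ _ => rfl) h

section aut

variable (F : IntermediateField ℚ (AlgebraicClosure ℚ)) [FiniteDimensional ℚ F] [IsGalois ℚ F]

attribute [local instance] H594.numberField_of_finite

/-- B10 in the vocabulary of layer G, for the full Galois group `Gal(F/ℚ)`. -/
theorem isUnramOut_aut_of_isUnramifiedOutside (S : Finset Nat.Primes)
    (h : F.IsUnramifiedOutside S) : G.IsUnramOut S (F ≃ₐ[ℚ] F) F := by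
  refine isUnramOut_of_forall_prime S _ _ (fun q hq P hP hqP g hg x => ?_)
  have h1 := (H594.isUnramifiedOutside_iff_inertia_eq_bot F S).1 h q hq P hP hqP
  have h2 : g ∈ P.inertia (F ≃ₐ[ℚ] F) := hg
  rw [h1, Subgroup.mem_bot] at h2
  rw [h2, one_smul]

end aut

variable {S : Finset Nat.Primes} (L : Level S)

/-- **LVL (3)**: a tower level is unramified outside `S` in the sense of layer G. -/
theorem level_isUnramOut : G.IsUnramOut S L.Gal L.F :=
  isUnramOut_of_hom S (L.F ≃ₐ[ℚ] L.F) L.Gal L.F (levelGalEquiv L).toMonoidHom (fun _ _ => rfl)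
    (isUnramOut_aut_of_isUnramifiedOutside L.F S L.unram)

/-- The same for every subgroup of `L.Gal`. -/
theorem level_isUnramOut_subgroup (H : Subgroup L.Gal) : G.IsUnramOut S H L.F :=
  isUnramOut_subgroup S L.Gal L.F H (level_isUnramOut L)

end

end Fermat.Agent.S55.E1.H594
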