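/-
S55 / engine E1 / G-ADAPTER leaf LVL (helper594), part 4: compatibility with `Level.proj`.

For levels `L ≤ L'`: the inclusion `L.F → L'.F` is equivariant along
`Level.proj h : L'.Gal → L.Gal`, the fixed field of `Level.relGal h` is `L.F`, and the two
hypotheses of `G.DescentSpec` hold in exactly the required form
(`G = L'.Gal`, `N = Level.relGal h`, `G ⧸ N` acting on `L.F` through `G ⧸ N → L.Gal`).
Also: a `p`-group acting on a field fixes the `p`-th roots of unity
(`G.HasFixedRootOfUnity` for `p`-subgroups of `L.Gal` when `μ_p ⊂ L.F`).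
No `sorry`.
-/
import Fermat.Agent.S55.E1.H594.LevelUnits
import Fermat.Agent.S55.E1.H594.LevelUnram

set_option autoImplicit false
set_option linter.unusedSectionVars false
set_option linter.style.haveILetI false

namespace Fermat.Agent.S55.E1.H594

open Fermat.Agent.S55 Fermat.Agent.S55.Tow Fermat.Agent.S55.Bridge NumberField

attribute [local instance] isAlgebraic_Qbar isGalois_Qbar

noncomputable section

variable {S : Finset Nat.Primes} {L L' : Level S} (h : L ≤ L')

/-- The inclusion `L.F → L'.F` for `L ≤ L'`. -/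
def levelIncl : L.F →+* L'.F where
  toFun x := ⟨(x : Qbar), h x.2⟩
  map_one' := rfl
  map_mul' _ _ := rfl
  map_zero' := rfl
  map_add' _ _ := rfl

theorem coe_levelIncl (x : L.F) : ((levelIncl h x : L'.F) : Qbar) = (x : Qbar) := rfl

theorem levelIncl_injective : Function.Injective (levelIncl h) :=
  (levelIncl h).injective

theorem mem_range_levelIncl_iff (x : L'.F) : x ∈ (levelIncl h).range ↔ (x : Qbar) ∈ L.F := by
  constructor
  · rintro ⟨y, rfl⟩
    exact y.2
  · intro hx
    exact ⟨⟨(x : Qbar), hx⟩, rfl⟩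

theorem level_proj_mk (σ : GQ) :
    Level.proj h (QuotientGroup.mk σ : L'.Gal) = (QuotientGroup.mk σ : L.Gal) := rfl

theorem level_proj_surjective : Function.Surjective (Level.proj h) := by
  intro g
  induction g using QuotientGroup.induction_on with
  | H σ => exact ⟨QuotientGroup.mk σ, rfl⟩

/-- The inclusion is equivariant along `Level.proj h`. -/
theorem levelIncl_proj_smul (g : L'.Gal) (x : L.F) :
    levelIncl h ((Level.proj h g) • x) = g • levelIncl h x := by
  induction g using QuotientGroup.induction_on with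
  | H σ =>
    apply Subtype.ext
    rw [coe_levelIncl, level_proj_mk, level_mk_smul, level_mk_smul, coe_levelIncl]

theorem mk_mem_relGal_iff (σ : GQ) :
    (QuotientGroup.mk σ : L'.Gal) ∈ Level.relGal h ↔ σ ∈ L.U := by
  unfold Level.relGal
  rw [MonoidHom.mem_ker, level_proj_mk]
  exact QuotientGroup.eq_one_iff σ

/-- The fixed field of `Gal(F'/F) = Level.relGal h` in `F'` is `F`. -/
theorem level_relGal_fixed_iff (x : L'.F) :
    (∀ n : Level.relGal h, (n : L'.Gal) • x = x) ↔ x ∈ (levelIncl h).range := by
  rw [mem_range_levelIncl_iff]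
  constructor
  · intro hx
    refine mem_level_of_fixed L _ (fun σ hσ => ?_)
    have := hx ⟨QuotientGroup.mk σ, (mk_mem_relGal_iff h σ).2 hσ⟩
    have h2 := congrArg (fun y : L'.F => (y : Qbar)) this
    simpa only [level_mk_smul] using h2
  · intro hx n
    obtain ⟨n, hn⟩ := n
    induction n using QuotientGroup.induction_on with
    | H σ =>
      apply Subtype.ext
      rw [level_mk_smul]
      exact fixed_of_mem_level L _ hx σ ((mk_mem_relGal_iff h σ).1 hn)

instance relGal_normal : (Level.relGal h).Normal := by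
  unfold Level.relGal
  infer_instance

/-- `Gal(F'/ℚ) ⧸ Gal(F'/F) → Gal(F/ℚ)` (an isomorphism). -/
def levelQuotHom : L'.Gal ⧸ Level.relGal h →* L.Gal :=
  QuotientGroup.kerLift (Level.proj h)

theorem levelQuotHom_mk (g : L'.Gal) :
    levelQuotHom h (QuotientGroup.mk g) = Level.proj h g := rfl

theorem levelQuotHom_bijective : Function.Bijective (levelQuotHom h) :=
  ⟨QuotientGroup.kerLift_injective (Level.proj h), fun g => by
    obtain ⟨g', rfl⟩ := level_proj_surjective h g
    exact ⟨QuotientGroup.mk g', rfl⟩⟩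

/-- `Gal(F'/ℚ) ⧸ Gal(F'/F) ≃* Gal(F/ℚ)`. -/
def levelQuotEquiv : L'.Gal ⧸ Level.relGal h ≃* L.Gal :=
  MulEquiv.ofBijective (levelQuotHom h) (levelQuotHom_bijective h)

/-- The action of `Gal(F'/ℚ) ⧸ Gal(F'/F)` on `F` (a definition, not an instance). -/
@[reducible] def levelQuotAction : MulSemiringAction (L'.Gal ⧸ Level.relGal h) L.F :=
  MulSemiringAction.compHom L.F (levelQuotHom h)

/-- `F'` as an algebra over `F` (a definition, not an instance). -/
@[reducible] def levelAlgebra : Algebra L.F L'.F := (levelIncl h).toAlgebra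

/-- First hypothesis of `G.DescentSpec` for `L ≤ L'`. -/
theorem level_descent_fixed :
    letI := levelAlgebra h
    ∀ x : L'.F, (∀ n : Level.relGal h, (n : L'.Gal) • x = x) ↔
      x ∈ (algebraMap L.F L'.F).range :=
  level_relGal_fixed_iff h

/-- Second hypothesis of `G.DescentSpec` for `L ≤ L'`. -/
theorem level_descent_equivariant :
    letI := levelAlgebra h
    letI := levelQuotAction h
    ∀ (g : L'.Gal) (x : L.F),
      algebraMap L.F L'.F ((g : L'.Gal ⧸ Level.relGal h) • x) = g • algebraMap L.F L'.F x :=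
  fun g x => levelIncl_proj_smul h g x

/-- The action of the quotient on `F` is faithful. -/
theorem levelQuot_faithfulSMul :
    letI := levelQuotAction h
    FaithfulSMul (L'.Gal ⧸ Level.relGal h) L.F := by
  letI := levelQuotAction h
  refine ⟨fun hab => ?_⟩
  apply (levelQuotHom_bijective h).1
  exact (level_faithfulSMul L).eq_of_smul_eq_smul hab

/-- `F/ℚ` is unramified outside `S` for the quotient action as well. -/
theorem levelQuot_isUnramOut :
    letI := levelQuotAction h
    G.IsUnramOut S (L'.Gal ⧸ Level.relGal h) L.F :=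
  letI := levelQuotAction h
  isUnramOut_of_hom S L.Gal (L'.Gal ⧸ Level.relGal h) L.F (levelQuotHom h) (fun _ _ => rfl)
    (level_isUnramOut L)

end

section roots

/-- A finite `p`-group acting on a field by automorphisms fixes every `p`-th root of unity. -/
theorem smul_eq_of_isPGroup_of_pow_eq_one {p : ℕ} [Fact p.Prime] {Γ K : Type} [Group Γ] [Finite Γ]
    [Field K] [MulSemiringAction Γ K] (hΓ : IsPGroup p Γ) {ζ : K} (hζ : ζ ^ p = 1) (g : Γ) :
    g • ζ = ζ := by
  classical
  by_cases h1 : ζ = 1
  · rw [h1, smul_one]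
  have hp : 0 < p := (Fact.out : p.Prime).pos
  set T : Finset K := (Polynomial.nthRootsFinset p (1 : K)).erase 1 with hT
  have hsub : MulAction.orbit Γ ζ ⊆ (T : Set K) := by
    rintro _ ⟨a, rfl⟩
    simp only [hT, Finset.coe_erase, Set.mem_sdiff, Finset.mem_coe, Set.mem_singleton_iff]
    constructor
    · rw [Polynomial.mem_nthRootsFinset hp]
      change (a • ζ) ^ p = 1
      rw [← smul_pow', hζ, smul_one]
    · intro h
      apply h1
      have := congrArg (fun y => a⁻¹ • y) h
      simpa using this
  haveI : Finite (MulAction.orbit Γ ζ) := Set.Finite.subset T.finite_toSet hsub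
  obtain ⟨n, hn⟩ := hΓ.card_orbit ζ
  have hle : Nat.card (MulAction.orbit Γ ζ) ≤ T.card := by
    have := Nat.card_mono T.finite_toSet hsub
    simpa using this
  have hT1 : T.card < p := by
    have h2 : (1 : K) ∈ Polynomial.nthRootsFinset p (1 : K) := by
      rw [Polynomial.mem_nthRootsFinset hp]
      exact one_pow p
    have h3 := Finset.card_erase_of_mem h2
    have h4 : (Polynomial.nthRootsFinset p (1 : K)).card ≤ p := by
      unfold Polynomial.nthRootsFinset
      exact (Multiset.toFinset_card_le _).trans (Polynomial.card_nthRoots p 1)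
    have h5 : 0 < (Polynomial.nthRootsFinset p (1 : K)).card := Finset.card_pos.2 ⟨1, h2⟩
    rw [← hT] at h3
    omega
  have hn0 : n = 0 := by
    by_contra hne
    have : p ≤ p ^ n := Nat.le_self_pow hne p
    rw [hn] at hle
    omega
  rw [hn0, pow_zero] at hn
  have hsingle : (MulAction.orbit Γ ζ).Subsingleton := by
    have := (Nat.card_eq_one_iff_unique.1 hn).1
    intro a ha b hb
    have := Subsingleton.elim (⟨a, ha⟩ : MulAction.orbit Γ ζ) ⟨b, hb⟩
    exact congrArg Subtype.val this
  exact hsingle (MulAction.mem_orbit ζ g) (MulAction.mem_orbit_self ζ)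

/-- `G.HasFixedRootOfUnity` for a finite `p`-group acting on a field containing a primitive
`p`-th root of unity. -/
theorem hasFixedRootOfUnity_of_isPGroup {p : ℕ} [Fact p.Prime] {Γ K : Type} [Group Γ] [Finite Γ]
    [Field K] [MulSemiringAction Γ K] (hΓ : IsPGroup p Γ) {ζ : K} (hζ : IsPrimitiveRoot ζ p) :
    G.HasFixedRootOfUnity p Γ K :=
  ⟨ζ, hζ, fun g => smul_eq_of_isPGroup_of_pow_eq_one hΓ hζ.pow_eq_one g⟩

variable {S : Finset Nat.Primes} (L : Level S)

/-- If `μ_p ⊂ F`, every `p`-subgroup of `Gal(F/ℚ)` fixes a primitive `p`-th root of unity. -/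
theorem level_hasFixedRootOfUnity {p : ℕ} [Fact p.Prime] {ζ : Qbar} (hζF : ζ ∈ L.F)
    (hζ : IsPrimitiveRoot ζ p) (H : Subgroup L.Gal) (hH : IsPGroup p H) :
    G.HasFixedRootOfUnity p H L.F := by
  haveI : Finite L.Gal := level_finite_gal L
  refine hasFixedRootOfUnity_of_isPGroup hH (ζ := (⟨ζ, hζF⟩ : L.F)) ?_
  exact IsPrimitiveRoot.of_map_of_injective (f := L.F.val) hζ Subtype.val_injective

/-- Subgroups of `Gal(F/ℚ)` act faithfully on `F`. -/
theorem level_faithfulSMul_subgroup (H : Subgroup L.Gal) : FaithfulSMul H L.F :=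
  ⟨fun hab => Subtype.ext ((level_faithfulSMul L).eq_of_smul_eq_smul hab)⟩

end roots

end Fermat.Agent.S55.E1.H594
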