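/-
S55 / engine E1 / G-ADAPTER leaf TENS (helper594), part 1: the ring-level comparison.

`q` a prime, `K = ℚ_q`, `Ω = ℚ̄_q`, `F ⊆ ℚ̄` finite Galois over `ℚ`, `Γ = Gal(F/ℚ)`,
`ι : ℚ̄ → Ω` the Prelude embedding, `r = toLevel q F : Gal(Ω/K) → Γ` (B11, helper175).

* `corePhi q F : K ⊗[ℚ] F →ₐ[K] (Γ → Ω)`, `c ⊗ x ↦ (g ↦ c · ι(g x))`;
* `coreR q F`: the `K`-subalgebra `{f | f (r τ * g) = τ (f g)}` of `Γ → Ω`
  (the ring underlying `Coind_{D_q}^{Γ} F_q`);
* `corePhi_injective` (Vandermonde), `corePhi_range : range = coreR` (dimension count, Artin);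
* `coreEquiv q F : K ⊗[ℚ] F ≃ₐ[K] coreR q F`, and the equivariance `corePhi_map`.
No `sorry`.
-/
import Fermat.Agent.S55.Bridge.H175.LevelGalois

set_option autoImplicit false
set_option linter.unusedSectionVars false
set_option linter.style.haveILetI false

namespace Fermat.Agent.S55.E1.H594

open Fermat.Agent.S55.Bridge.H175
open scoped TensorProduct

noncomputable section

section core

variable (q : ℕ) [Fact q.Prime]
variable (F : IntermediateField ℚ (AlgebraicClosure ℚ)) [FiniteDimensional ℚ F] [IsGalois ℚ F]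

/-- `ι` restricted to `F`, as a `ℚ`-algebra homomorphism. -/
def coreEmb : F →ₐ[ℚ] PadicAlgCl q :=
  ((padicEmbedding q).toRingHom.comp F.val.toRingHom).toRatAlgHom

theorem coreEmb_apply (x : F) : coreEmb q F x = padicEmbedding q (x : AlgebraicClosure ℚ) := rfl

theorem coreEmb_injective : Function.Injective (coreEmb q F) :=
  (coreEmb q F).toRingHom.injective

/-- Evaluation at `g ∈ Gal(F/ℚ)`: `c ⊗ x ↦ c · ι(g x)`. -/
def coreEv (g : F ≃ₐ[ℚ] F) : ℚ_[q] ⊗[ℚ] F →ₐ[ℚ_[q]] PadicAlgCl q :=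
  Algebra.TensorProduct.lift (Algebra.ofId ℚ_[q] (PadicAlgCl q))
    ((coreEmb q F).comp (g : F →ₐ[ℚ] F)) (fun _ _ => Commute.all _ _)

theorem coreEv_tmul (g : F ≃ₐ[ℚ] F) (c : ℚ_[q]) (x : F) :
    coreEv q F g (c ⊗ₜ[ℚ] x) =
      algebraMap ℚ_[q] (PadicAlgCl q) c * padicEmbedding q ((g x : F) : AlgebraicClosure ℚ) :=
  rfl

/-- `Φ : K ⊗[ℚ] F → (Γ → Ω)`, `c ⊗ x ↦ (g ↦ c · ι(g x))`. -/
def corePhi : ℚ_[q] ⊗[ℚ] F →ₐ[ℚ_[q]] ((F ≃ₐ[ℚ] F) → PadicAlgCl q) :=
  AlgHom.pi (coreEv q F)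

theorem corePhi_apply (a : ℚ_[q] ⊗[ℚ] F) (g : F ≃ₐ[ℚ] F) :
    corePhi q F a g = coreEv q F g a := rfl

theorem corePhi_tmul (g : F ≃ₐ[ℚ] F) (c : ℚ_[q]) (x : F) :
    corePhi q F (c ⊗ₜ[ℚ] x) g =
      algebraMap ℚ_[q] (PadicAlgCl q) c * padicEmbedding q ((g x : F) : AlgebraicClosure ℚ) :=
  rfl

/-- A `K`-basis expansion of the evaluation: for a power basis `θ^i` of `F/ℚ`,
`ev_g a = ∑ c_i · ι(g θ)^i`. -/
theorem coreEv_eq_sum (pb : PowerBasis ℚ F) (a : ℚ_[q] ⊗[ℚ] F) (g : F ≃ₐ[ℚ] F) :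
    coreEv q F g a = ∑ i : Fin pb.dim,
      algebraMap ℚ_[q] (PadicAlgCl q) ((Algebra.TensorProduct.basis ℚ_[q] pb.basis).repr a i) *
        padicEmbedding q ((g pb.gen : F) : AlgebraicClosure ℚ) ^ (i : ℕ) := by
  conv_lhs => rw [← (Algebra.TensorProduct.basis ℚ_[q] pb.basis).sum_repr a]
  rw [map_sum]
  refine Finset.sum_congr rfl (fun i _ => ?_)
  rw [map_smul, Algebra.TensorProduct.basis_apply, coreEv_tmul, map_one, one_mul,
    Algebra.smul_def, PowerBasis.coe_basis, map_pow]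
  have h1 : (((g pb.gen ^ (i : ℕ) : F)) : AlgebraicClosure ℚ) =
      ((g pb.gen : F) : AlgebraicClosure ℚ) ^ (i : ℕ) := rfl
  rw [h1, map_pow]

/-- **Injectivity of `Φ`** (Vandermonde). -/
theorem corePhi_injective : Function.Injective (corePhi q F) := by
  rw [injective_iff_map_eq_zero]
  intro a ha
  let pb : PowerBasis ℚ F := Field.powerBasisOfFiniteOfSeparable ℚ F
  have hcard : Nat.card (F ≃ₐ[ℚ] F) = pb.dim := by
    rw [IsGalois.card_aut_eq_finrank, pb.finrank]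
  let e : (F ≃ₐ[ℚ] F) ≃ Fin pb.dim := Finite.equivFinOfCardEq hcard
  let v : Fin pb.dim → PadicAlgCl q :=
    fun i => padicEmbedding q ((e.symm i pb.gen : F) : AlgebraicClosure ℚ)
  have hv : Function.Injective v := by
    intro i j hij
    have h1 : (e.symm i pb.gen : F) = e.symm j pb.gen :=
      coreEmb_injective q F hij
    have h2 : ((e.symm i : F ≃ₐ[ℚ] F) : F →ₐ[ℚ] F) = ((e.symm j : F ≃ₐ[ℚ] F) : F →ₐ[ℚ] F) :=
      pb.algHom_ext h1
    have h3 : e.symm i = e.symm j :=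
      AlgEquiv.ext (fun x => congrArg (fun f : F →ₐ[ℚ] F => f x) h2)
    exact e.symm.injective h3
  have hdet : (Matrix.vandermonde v).det ≠ 0 := Matrix.det_vandermonde_ne_zero_iff.2 hv
  let c : Fin pb.dim → PadicAlgCl q := fun i =>
    algebraMap ℚ_[q] (PadicAlgCl q) ((Algebra.TensorProduct.basis ℚ_[q] pb.basis).repr a i)
  have hmul : (Matrix.vandermonde v).mulVec c = 0 := by
    funext i
    have h1 : coreEv q F (e.symm i) a = 0 := congrFun ha (e.symm i)
    rw [coreEv_eq_sum q F pb] at h1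
    rw [Pi.zero_apply, ← h1]
    simp only [Matrix.mulVec, dotProduct, Matrix.vandermonde_apply]
    exact Finset.sum_congr rfl (fun j _ => mul_comm _ _)
  have hc : c = 0 := Matrix.eq_zero_of_mulVec_eq_zero hdet hmul
  have hrepr : (Algebra.TensorProduct.basis ℚ_[q] pb.basis).repr a = 0 := by
    ext i
    have := congrFun hc i
    exact (algebraMap ℚ_[q] (PadicAlgCl q)).injective (by simpa [c] using this)
  exact (Algebra.TensorProduct.basis ℚ_[q] pb.basis).repr.map_eq_zero_iff.1 hrepr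

/-- The `K`-subalgebra `{f | f (r τ * g) = τ (f g)}` of `Γ → Ω`. -/
def coreR : Subalgebra ℚ_[q] ((F ≃ₐ[ℚ] F) → PadicAlgCl q) where
  carrier := {f | ∀ (τ : PadicAlgCl q ≃ₐ[ℚ_[q]] PadicAlgCl q) (g : F ≃ₐ[ℚ] F),
    f (toLevel q F τ * g) = τ (f g)}
  mul_mem' := fun {a b} ha hb τ g => by
    rw [Pi.mul_apply, Pi.mul_apply, ha τ g, hb τ g, map_mul]
  add_mem' := fun {a b} ha hb τ g => by
    rw [Pi.add_apply, Pi.add_apply, ha τ g, hb τ g, map_add]
  algebraMap_mem' := fun c τ g => by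
    rw [Pi.algebraMap_apply, Pi.algebraMap_apply, AlgEquiv.commutes]

theorem mem_coreR_iff (f : (F ≃ₐ[ℚ] F) → PadicAlgCl q) :
    f ∈ coreR q F ↔ ∀ (τ : PadicAlgCl q ≃ₐ[ℚ_[q]] PadicAlgCl q) (g : F ≃ₐ[ℚ] F),
      f (toLevel q F τ * g) = τ (f g) := Iff.rfl

theorem corePhi_mem (a : ℚ_[q] ⊗[ℚ] F) : corePhi q F a ∈ coreR q F := by
  induction a using TensorProduct.induction_on with
  | zero => rw [map_zero]; exact (coreR q F).zero_mem
  | add a b ha hb => rw [map_add]; exact (coreR q F).add_mem ha hb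
  | tmul c x =>
    intro τ g
    rw [corePhi_tmul, corePhi_tmul, map_mul, AlgEquiv.commutes, AlgEquiv.mul_apply,
      padicEmbedding_toLevel]

/-- The values of an element of `coreR` lie in the local level `F_q = K · ι(F)`. -/
theorem coreR_apply_mem (f : (F ≃ₐ[ℚ] F) → PadicAlgCl q) (hf : f ∈ coreR q F)
    (g : F ≃ₐ[ℚ] F) : f g ∈ localLevel q F := by
  haveI : IsGalois ℚ_[q] (PadicAlgCl q) := IsAlgClosure.isGalois ℚ_[q] (PadicAlgCl q)
  rw [← InfiniteGalois.fixedField_fixingSubgroup (localLevel q F)]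
  rintro ⟨τ, hτ⟩
  have h1 : toLevel q F τ = 1 := by
    rw [← MonoidHom.mem_ker, ker_toLevel]
    exact hτ
  have h2 := hf τ g
  rw [h1, one_mul] at h2
  exact h2.symm

/-- `coreR` is finite-dimensional over `K`, of dimension `≤ [F : ℚ]`
(evaluate at a transversal of the decomposition group; `[F_q : K] = |D_q|` by B11). -/
theorem finite_and_finrank_coreR_le :
    Module.Finite ℚ_[q] (coreR q F) ∧
      Module.finrank ℚ_[q] (coreR q F) ≤ Module.finrank ℚ F := by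
  classical
  haveI := finiteDimensional_localLevel q F
  obtain ⟨T, hT, -⟩ := (decompositionAt q F).exists_isComplement_right 1
  haveI : Finite T := Finite.of_injective (fun t : T => (t : F ≃ₐ[ℚ] F)) Subtype.val_injective
  haveI : Fintype T := Fintype.ofFinite T
  let L : coreR q F →ₗ[ℚ_[q]] (T → localLevel q F) :=
    { toFun := fun f t => ⟨f.1 (t : F ≃ₐ[ℚ] F), coreR_apply_mem q F f.1 f.2 _⟩
      map_add' := fun f f' => rfl
      map_smul' := fun c f => rfl }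
  have hL : Function.Injective L := by
    rw [injective_iff_map_eq_zero]
    intro f hf
    apply Subtype.ext
    funext g
    obtain ⟨⟨d, t⟩, hdt, -⟩ := hT.existsUnique g
    obtain ⟨τ, hτ⟩ := d.2
    have h1 : f.1 (t : F ≃ₐ[ℚ] F) = 0 := by
      have := congrFun hf t
      exact congrArg (fun y : localLevel q F => (y : PadicAlgCl q)) this
    have h2 : g = toLevel q F τ * t := by
      rw [hτ]
      exact hdt.symm
    have h3 := f.2 τ (t : F ≃ₐ[ℚ] F)
    rw [h2, h3, h1, map_zero]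
    rfl
  haveI hfin : Module.Finite ℚ_[q] (coreR q F) := Module.Finite.of_injective L hL
  refine ⟨hfin, ?_⟩
  have h1 := LinearMap.finrank_le_finrank_of_injective hL
  have h2 : Module.finrank ℚ_[q] (T → localLevel q F) =
      Nat.card T * Module.finrank ℚ_[q] (localLevel q F) := by
    rw [Module.finrank_pi_fintype, Finset.sum_const, Finset.card_univ, smul_eq_mul,
      Nat.card_eq_fintype_card]
  have h3 : Nat.card (decompositionAt q F) * Nat.card T = Nat.card (F ≃ₐ[ℚ] F) :=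
    hT.card_mul_card
  rw [h2, ← card_decompositionAt q F, mul_comm, h3, IsGalois.card_aut_eq_finrank] at h1
  exact h1

/-- `Φ` with values in `coreR`. -/
def corePhiR : ℚ_[q] ⊗[ℚ] F →ₐ[ℚ_[q]] coreR q F :=
  (corePhi q F).codRestrict (coreR q F) (corePhi_mem q F)

theorem corePhiR_apply (a : ℚ_[q] ⊗[ℚ] F) : ((corePhiR q F a : coreR q F) :
    (F ≃ₐ[ℚ] F) → PadicAlgCl q) = corePhi q F a := rfl

theorem corePhiR_injective : Function.Injective (corePhiR q F) := fun _ _ h =>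
  corePhi_injective q F (congrArg Subtype.val h)

theorem corePhiR_bijective : Function.Bijective (corePhiR q F) := by
  obtain ⟨hfin, hle⟩ := finite_and_finrank_coreR_le q F
  haveI := hfin
  have h1 := LinearMap.finrank_le_finrank_of_injective
    (f := (corePhiR q F).toLinearMap) (corePhiR_injective q F)
  have h2 : Module.finrank ℚ_[q] (ℚ_[q] ⊗[ℚ] F) = Module.finrank ℚ F :=
    Module.finrank_baseChange
  have h3 : Module.finrank ℚ_[q] (ℚ_[q] ⊗[ℚ] F) = Module.finrank ℚ_[q] (coreR q F) :=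
    le_antisymm h1 (h2 ▸ hle)
  exact ⟨corePhiR_injective q F,
    (LinearMap.injective_iff_surjective_of_finrank_eq_finrank
      (f := (corePhiR q F).toLinearMap) h3).1 (corePhiR_injective q F)⟩

/-- **TENS, ring level**: `K ⊗[ℚ] F ≃ₐ[K] {f : Γ → Ω | f (r τ * g) = τ (f g)}`. -/
def coreEquiv : ℚ_[q] ⊗[ℚ] F ≃ₐ[ℚ_[q]] coreR q F :=
  AlgEquiv.ofBijective (corePhiR q F) (corePhiR_bijective q F)

theorem coreEquiv_apply (a : ℚ_[q] ⊗[ℚ] F) (g : F ≃ₐ[ℚ] F) :
    (coreEquiv q F a : (F ≃ₐ[ℚ] F) → PadicAlgCl q) g = coreEv q F g a := rfl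

theorem coreEquiv_tmul (c : ℚ_[q]) (x : F) (g : F ≃ₐ[ℚ] F) :
    (coreEquiv q F (c ⊗ₜ[ℚ] x) : (F ≃ₐ[ℚ] F) → PadicAlgCl q) g =
      algebraMap ℚ_[q] (PadicAlgCl q) c * padicEmbedding q ((g x : F) : AlgebraicClosure ℚ) :=
  rfl

/-- Equivariance: `Φ((1 ⊗ h) a)(g) = Φ(a)(g h)`. -/
theorem coreEv_map (h g : F ≃ₐ[ℚ] F) (a : ℚ_[q] ⊗[ℚ] F) :
    coreEv q F g (Algebra.TensorProduct.map (AlgHom.id ℚ_[q] ℚ_[q]) (h : F →ₐ[ℚ] F) a) =
      coreEv q F (g * h) a := by
  induction a using TensorProduct.induction_on with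
  | zero => simp
  | add a b ha hb => rw [map_add, map_add, ha, hb, map_add]
  | tmul c x =>
    rw [Algebra.TensorProduct.map_tmul, coreEv_tmul, coreEv_tmul]
    rfl

end core

end

end Fermat.Agent.S55.E1.H594
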