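/-
S55 / engine E1 / G-ADAPTER leaf TENS (helper594), part 2: units, tower form.

For a tower level `L : Tow.Level S` and a prime `q`:
`tensLocEquiv L q : Additive (ℚ_q ⊗[ℚ] L.F)ˣ ≃+ (L.J q).V`
(the local factor of the `S`-idèles in the tensor model of layer G is the coinduced module
`J_q(F) = Coind_{Dec q}^{Gal} F_qˣ` of the tower), with
`tensLocEquiv L q u` = the function `g ↦ ev_g(u)`, `ev_g (c ⊗ x) = c · ι(g x)`,
and equivariant for the action of `L.Gal` on the second factor.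
No `sorry`.
-/
import Fermat.Agent.S55.E1.H594.TensCore
import Fermat.Agent.S55.E1.H594.LevelField

set_option autoImplicit false
set_option linter.unusedSectionVars false
set_option linter.style.haveILetI false

namespace Fermat.Agent.S55.E1.H594

open Fermat.Agent.S55 Fermat.Agent.S55.Tow Fermat.Agent.S55.Bridge
open Fermat.Agent.S55.Bridge.H175
open scoped TensorProduct

attribute [local instance] isAlgebraic_Qbar isGalois_Qbar

noncomputable section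

/-- `q : Nat.Primes` is prime (local instance of this file). -/
local instance instFactPrimeH594 (q : Nat.Primes) : Fact (q : ℕ).Prime := ⟨q.2⟩

variable {S : Finset Nat.Primes} (L : Level S) (q : Nat.Primes)

/-- An element of the Prelude local Galois group as an automorphism of `ℚ̄_q`. -/
def locAut (τ : GQp q) : PadicAlgCl (q : ℕ) ≃ₐ[ℚ_[(q : ℕ)]] PadicAlgCl (q : ℕ) := τ

theorem locQ_eq (τ : GQp q) : locQ q τ = localGaloisToGlobal (q : ℕ) (locAut q τ) := rfl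

theorem locAut_mul (τ τ' : GQp q) : locAut q (τ * τ') = locAut q τ * locAut q τ' := rfl

/-- `toLevel` (B11) in tower terms. -/
theorem toLevel_locAut (τ : GQp q) :
    toLevel (q : ℕ) L.F (locAut q τ) = levelGalEquiv L (QuotientGroup.mk (locQ q τ) : L.Gal) :=
  rfl

theorem toLevel_eq_one_of_mem_V (τ : GQp q) (hτ : τ ∈ L.V q) :
    toLevel (q : ℕ) L.F (locAut q τ) = 1 := by
  rw [toLevel_locAut]
  have : (QuotientGroup.mk (locQ q τ) : L.Gal) = 1 := (QuotientGroup.eq_one_iff _).2 hτ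
  rw [this, map_one]

/-- The underlying element of `ℚ̄_q` of an element of `F_qˣ = (ℚ̄_qˣ)^{V}`. -/
def locVal (x : (L.locUnits q).V) : PadicAlgCl (q : ℕ) :=
  ((Additive.toMul (α := (PadicAlgCl (q : ℕ))ˣ) (x.1 : Additive (PadicAlgCl (q : ℕ))ˣ) :
    (PadicAlgCl (q : ℕ))ˣ) : PadicAlgCl (q : ℕ))

theorem locVal_injective : Function.Injective (locVal L q) := by
  intro x y h
  apply Subtype.ext
  apply Additive.toMul.injective
  apply Units.ext
  exact h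

theorem locVal_add (x y : (L.locUnits q).V) : locVal L q (x + y) = locVal L q x * locVal L q y :=
  rfl

theorem locVal_zero : locVal L q 0 = 1 := rfl

theorem locVal_ne_zero (x : (L.locUnits q).V) : locVal L q x ≠ 0 :=
  (Additive.toMul (α := (PadicAlgCl (q : ℕ))ˣ) (x.1 : Additive (PadicAlgCl (q : ℕ))ˣ)).ne_zero

theorem locVal_ρ_mk (τ : GQp q) (x : (L.locUnits q).V) :
    locVal L q ((L.locUnits q).ρ (QuotientGroup.mk τ : L.Dec q) x) = locAut q τ (locVal L q x) :=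
  rfl

theorem locVal_fixed (x : (L.locUnits q).V) (τ : GQp q) (hτ : τ ∈ L.V q) :
    locAut q τ (locVal L q x) = locVal L q x := by
  have h := x.2 ⟨τ, hτ⟩
  exact congrArg (fun v : Additive (PadicAlgCl (q : ℕ))ˣ =>
    ((Additive.toMul v : (PadicAlgCl (q : ℕ))ˣ) : PadicAlgCl (q : ℕ))) h

/-- Construct an element of `F_qˣ` from a nonzero `V`-fixed element of `ℚ̄_q`. -/
def locMk (w : PadicAlgCl (q : ℕ)) (hw : w ≠ 0)
    (hfix : ∀ τ : GQp q, τ ∈ L.V q → locAut q τ w = w) : (L.locUnits q).V :=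
  ⟨Additive.ofMul (Units.mk0 w hw), fun τ => by
    apply Additive.toMul.injective
    apply Units.ext
    exact hfix τ.1 τ.2⟩

theorem locVal_locMk (w : PadicAlgCl (q : ℕ)) (hw : w ≠ 0)
    (hfix : ∀ τ : GQp q, τ ∈ L.V q → locAut q τ w = w) :
    locVal L q (locMk L q w hw hfix) = w := rfl

/-- Evaluation at `g ∈ L.Gal`: the `ℚ_q`-algebra map `ℚ_q ⊗ F → ℚ̄_q`, `c ⊗ x ↦ c · ι(g x)`. -/
def towerEv (g : L.Gal) : ℚ_[(q : ℕ)] ⊗[ℚ] L.F →ₐ[ℚ_[(q : ℕ)]] PadicAlgCl (q : ℕ) :=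
  coreEv (q : ℕ) L.F (levelGalEquiv L g)

theorem towerEv_tmul (g : L.Gal) (c : ℚ_[(q : ℕ)]) (x : L.F) :
    towerEv L q g (c ⊗ₜ[ℚ] x) = algebraMap ℚ_[(q : ℕ)] (PadicAlgCl (q : ℕ)) c *
      padicEmbedding (q : ℕ) ((g • x : L.F) : Qbar) := rfl

theorem towerEv_decHom_mul (τ : GQp q) (g : L.Gal) (a : ℚ_[(q : ℕ)] ⊗[ℚ] L.F) :
    towerEv L q (L.decHom q (QuotientGroup.mk τ : L.Dec q) * g) a =
      locAut q τ (towerEv L q g a) := by
  have h := corePhi_mem (q : ℕ) L.F a (locAut q τ) (levelGalEquiv L g)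
  rw [toLevel_locAut, ← map_mul] at h
  exact h

theorem towerEv_fixed (g : L.Gal) (a : ℚ_[(q : ℕ)] ⊗[ℚ] L.F) (τ : GQp q) (hτ : τ ∈ L.V q) :
    locAut q τ (towerEv L q g a) = towerEv L q g a := by
  have h := corePhi_mem (q : ℕ) L.F a (locAut q τ) (levelGalEquiv L g)
  rw [toLevel_eq_one_of_mem_V L q τ hτ, one_mul] at h
  exact h.symm

/-- The action of `h ∈ L.Gal` on `ℚ_q ⊗ F` (through the second factor). -/
def towerAct (h : L.Gal) : ℚ_[(q : ℕ)] ⊗[ℚ] L.F →ₐ[ℚ_[(q : ℕ)]] ℚ_[(q : ℕ)] ⊗[ℚ] L.F :=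
  Algebra.TensorProduct.map (AlgHom.id ℚ_[(q : ℕ)] ℚ_[(q : ℕ)])
    ((levelGalEquiv L h : L.F ≃ₐ[ℚ] L.F) : L.F →ₐ[ℚ] L.F)

theorem towerAct_tmul (h : L.Gal) (c : ℚ_[(q : ℕ)]) (x : L.F) :
    towerAct L q h (c ⊗ₜ[ℚ] x) = c ⊗ₜ[ℚ] (h • x) := rfl

theorem towerEv_towerAct (g h : L.Gal) (a : ℚ_[(q : ℕ)] ⊗[ℚ] L.F) :
    towerEv L q g (towerAct L q h a) = towerEv L q (g * h) a := by
  have := coreEv_map (q : ℕ) L.F (levelGalEquiv L h) (levelGalEquiv L g) a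
  rw [← map_mul] at this
  exact this

/-- `u ↦ (g ↦ ev_g u)`: the map `(ℚ_q ⊗ F)ˣ → J_q(F)`. -/
def tensLocFun (u : (ℚ_[(q : ℕ)] ⊗[ℚ] L.F)ˣ) : (L.J q).V :=
  ⟨fun g => locMk L q (towerEv L q g (u : ℚ_[(q : ℕ)] ⊗[ℚ] L.F))
      (IsUnit.ne_zero (u.isUnit.map (towerEv L q g).toRingHom))
      (fun τ hτ => towerEv_fixed L q g _ τ hτ), by
    intro d g
    induction d using QuotientGroup.induction_on with
    | H τ =>
      apply locVal_injective
      rw [locVal_ρ_mk, locVal_locMk, locVal_locMk]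
      exact towerEv_decHom_mul L q τ g _⟩

theorem locVal_tensLocFun (u : (ℚ_[(q : ℕ)] ⊗[ℚ] L.F)ˣ) (g : L.Gal) :
    locVal L q ((tensLocFun L q u).1 g) = towerEv L q g (u : ℚ_[(q : ℕ)] ⊗[ℚ] L.F) := rfl

/-- Two elements of `J_q(F)` with the same values are equal. -/
theorem J_ext {f f' : (L.J q).V} (h : ∀ g, locVal L q (f.1 g) = locVal L q (f'.1 g)) :
    f = f' := by
  apply Subtype.ext
  funext g
  exact locVal_injective L q (h g)

/-- `(ℚ_q ⊗ F)ˣ → J_q(F)` as an additive map. -/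
def tensLocHom : Additive (ℚ_[(q : ℕ)] ⊗[ℚ] L.F)ˣ →+ (L.J q).V where
  toFun u := tensLocFun L q u.toMul
  map_zero' := by
    apply J_ext
    intro g
    rw [locVal_tensLocFun]
    exact map_one (towerEv L q g).toRingHom
  map_add' u v := by
    apply J_ext
    intro g
    rw [locVal_tensLocFun]
    exact map_mul (towerEv L q g).toRingHom _ _

theorem locVal_tensLocHom (u : Additive (ℚ_[(q : ℕ)] ⊗[ℚ] L.F)ˣ) (g : L.Gal) :
    locVal L q ((tensLocHom L q u).1 g) =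
      towerEv L q g ((u.toMul : (ℚ_[(q : ℕ)] ⊗[ℚ] L.F)ˣ) : ℚ_[(q : ℕ)] ⊗[ℚ] L.F) := rfl

theorem tensLocHom_injective : Function.Injective (tensLocHom L q) := by
  intro u v h
  apply Additive.toMul.injective
  apply Units.ext
  apply corePhi_injective (q : ℕ) L.F
  funext γ
  have h1 := congrArg (fun f : (L.J q).V => locVal L q (f.1 ((levelGalEquiv L).symm γ))) h
  simp only [locVal_tensLocHom, towerEv, MulEquiv.apply_symm_apply] at h1
  exact h1

/-- The function `Γ → Ω` underlying an element of `J_q(F)`. -/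
def coreOfJ (f : (L.J q).V) : (L.F ≃ₐ[ℚ] L.F) → PadicAlgCl (q : ℕ) :=
  fun γ => locVal L q (f.1 ((levelGalEquiv L).symm γ))

theorem coreOfJ_mem (f : (L.J q).V) : coreOfJ L q f ∈ coreR (q : ℕ) L.F := by
  intro τ' γ
  let τ : GQp q := τ'
  have h1 : toLevel (q : ℕ) L.F τ' =
      levelGalEquiv L (L.decHom q (QuotientGroup.mk τ : L.Dec q)) := rfl
  have h2 : (levelGalEquiv L).symm (toLevel (q : ℕ) L.F τ' * γ) =
      L.decHom q (QuotientGroup.mk τ : L.Dec q) * (levelGalEquiv L).symm γ := by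
    rw [h1, MulEquiv.symm_apply_eq, map_mul, MulEquiv.apply_symm_apply]
  have h3 := f.2 (QuotientGroup.mk τ : L.Dec q) ((levelGalEquiv L).symm γ)
  change locVal L q (f.1 ((levelGalEquiv L).symm (toLevel (q : ℕ) L.F τ' * γ))) =
    τ' (locVal L q (f.1 ((levelGalEquiv L).symm γ)))
  rw [h2, h3]
  rfl

theorem coreOfJ_neg_mul (f : (L.J q).V) (γ : L.F ≃ₐ[ℚ] L.F) :
    coreOfJ L q (-f) γ * coreOfJ L q f γ = 1 := by
  have h : (-f + f : (L.J q).V) = 0 := neg_add_cancel f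
  have h1 := congrArg (fun f' : (L.J q).V => locVal L q (f'.1 ((levelGalEquiv L).symm γ))) h
  exact h1

theorem tensLocHom_surjective : Function.Surjective (tensLocHom L q) := by
  intro f
  let e := (coreEquiv (q : ℕ) L.F).toRingEquiv
  let a := e.symm ⟨coreOfJ L q f, coreOfJ_mem L q f⟩
  let b := e.symm ⟨coreOfJ L q (-f), coreOfJ_mem L q (-f)⟩
  have hba : b * a = 1 := by
    apply e.injective
    rw [map_mul, map_one, RingEquiv.apply_symm_apply, RingEquiv.apply_symm_apply]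
    apply Subtype.ext
    funext γ
    exact coreOfJ_neg_mul L q f γ
  have hab : a * b = 1 := (mul_comm a b).trans hba
  refine ⟨Additive.ofMul ⟨a, b, hab, hba⟩, ?_⟩
  apply J_ext
  intro g
  rw [locVal_tensLocHom]
  change ((coreEquiv (q : ℕ) L.F a : coreR (q : ℕ) L.F) :
    (L.F ≃ₐ[ℚ] L.F) → PadicAlgCl (q : ℕ)) (levelGalEquiv L g) = _
  have h1 : coreEquiv (q : ℕ) L.F a = ⟨coreOfJ L q f, coreOfJ_mem L q f⟩ :=
    e.apply_symm_apply _
  rw [h1]
  change locVal L q (f.1 ((levelGalEquiv L).symm (levelGalEquiv L g))) = _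
  rw [MulEquiv.symm_apply_apply]

/-- **TENS, local factor**: `(ℚ_q ⊗[ℚ] F)ˣ ≃ J_q(F) = Coind_{Dec q}^{Gal} F_qˣ`. -/
def tensLocEquiv : Additive (ℚ_[(q : ℕ)] ⊗[ℚ] L.F)ˣ ≃+ (L.J q).V :=
  AddEquiv.ofBijective (tensLocHom L q) ⟨tensLocHom_injective L q, tensLocHom_surjective L q⟩

theorem locVal_tensLocEquiv (u : Additive (ℚ_[(q : ℕ)] ⊗[ℚ] L.F)ˣ) (g : L.Gal) :
    locVal L q ((tensLocEquiv L q u).1 g) =
      towerEv L q g ((u.toMul : (ℚ_[(q : ℕ)] ⊗[ℚ] L.F)ˣ) : ℚ_[(q : ℕ)] ⊗[ℚ] L.F) := rfl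

/-- The action of `h ∈ L.Gal` on the units of `ℚ_q ⊗ F`. -/
def towerActUnits (h : L.Gal) :
    Additive (ℚ_[(q : ℕ)] ⊗[ℚ] L.F)ˣ →+ Additive (ℚ_[(q : ℕ)] ⊗[ℚ] L.F)ˣ :=
  MonoidHom.toAdditive (Units.map ((towerAct L q h).toRingHom : _ →* _))

theorem coe_towerActUnits (h : L.Gal) (u : Additive (ℚ_[(q : ℕ)] ⊗[ℚ] L.F)ˣ) :
    (((towerActUnits L q h u).toMul : (ℚ_[(q : ℕ)] ⊗[ℚ] L.F)ˣ) : ℚ_[(q : ℕ)] ⊗[ℚ] L.F) =
      towerAct L q h ((u.toMul : (ℚ_[(q : ℕ)] ⊗[ℚ] L.F)ˣ) : ℚ_[(q : ℕ)] ⊗[ℚ] L.F) := rfl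

/-- Equivariance of `tensLocEquiv`. -/
theorem tensLocEquiv_equivariant (h : L.Gal) (u : Additive (ℚ_[(q : ℕ)] ⊗[ℚ] L.F)ˣ) :
    tensLocEquiv L q (towerActUnits L q h u) = (L.J q).ρ h (tensLocEquiv L q u) := by
  apply J_ext
  intro g
  rw [locVal_tensLocEquiv, coe_towerActUnits, towerEv_towerAct]
  rfl

end

end Fermat.Agent.S55.E1.H594
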