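/-
S55 / engine E1 / G-ADAPTER leaf TENS (helper594), part 3: the `S`-idèles.

For a tower level `L : Tow.Level S`: the `S`-idèle module of layer G,
`G.JRep L.Gal S L.F = (L.F ⊗[ℚ] ℚ_S)ˣ`, is the product of the tower modules
`L.J q = Coind_{Dec q}^{Gal} F_qˣ`, `q ∈ S`:

* `tensEvS L q g : L.F ⊗[ℚ] ℚ_S →+* ℚ̄_q`, `x ⊗ y ↦ ι(g x) · y_q`;
* `tensEquiv L : Additive (G.AS S L.F)ˣ ≃+ ∀ q : S, (L.J q).V`, with
  `locVal ((tensEquiv L u q).1 g) = tensEvS L q g u`, equivariant for `G.jRepr`;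
* `tensProj L q : G.JRep L.Gal S L.F ⟶ L.J q`, `tensIncl L q : L.J q ⟶ G.JRep L.Gal S L.F`
  in `Rep ℤ L.Gal`, presenting `J_S` as the biproduct of the `J_q`;
* compatibility with the diagonal embedding of `Fˣ` (`tensEquiv_unitsDiag`).
No `sorry`.
-/
import Fermat.Agent.S55.E1.H594.TensUnits
import Fermat.Agent.S55.G.Defs

set_option autoImplicit false
set_option linter.unusedSectionVars false
set_option linter.style.haveILetI false

namespace Fermat.Agent.S55.E1.H594

open Fermat.Agent.S55 Fermat.Agent.S55.Tow Fermat.Agent.S55.Bridge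
open Fermat.Agent.S55.Bridge.H175
open scoped TensorProduct

attribute [local instance] isAlgebraic_Qbar isGalois_Qbar

noncomputable section

/-- `q : Nat.Primes` is prime (local instance of this file). -/
local instance instFactPrimeH594' (q : Nat.Primes) : Fact (q : ℕ).Prime := ⟨q.2⟩

variable {S : Finset Nat.Primes} (L : Level S)

/-- The ring isomorphism `L.F ⊗[ℚ] ℚ_S ≃ ∏_{q ∈ S} ℚ_q ⊗[ℚ] L.F`. -/
def asPiEquiv : G.AS S L.F ≃+* (∀ q : S, ℚ_[(q.1 : ℕ)] ⊗[ℚ] L.F) := by
  classical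
  exact ((Algebra.TensorProduct.congr (AlgEquiv.refl : L.F ≃ₐ[ℚ] L.F) (G.QS.toPi S)).trans
    ((Algebra.TensorProduct.piRight ℚ ℚ L.F (fun q : S => G.Qq q.1)).trans
      (AlgEquiv.piCongrRight
        (fun q : S => Algebra.TensorProduct.comm ℚ L.F (G.Qq q.1))))).toRingEquiv

theorem asPiEquiv_tmul (x : L.F) (y : G.QS S) (q : S) :
    asPiEquiv L (x ⊗ₜ[ℚ] y) q = (G.QS.toPi S y q) ⊗ₜ[ℚ] x := rfl

/-- Evaluation at `q ∈ S`, `g ∈ L.Gal`: the ring map `L.F ⊗[ℚ] ℚ_S → ℚ̄_q`,
`x ⊗ y ↦ y_q · ι(g x)`. -/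
def tensEvS (q : S) (g : L.Gal) : G.AS S L.F →+* PadicAlgCl (q.1 : ℕ) :=
  (towerEv L q.1 g).toRingHom.comp
    ((Pi.evalRingHom (fun q : S => ℚ_[(q.1 : ℕ)] ⊗[ℚ] L.F) q).comp (asPiEquiv L).toRingHom)

theorem tensEvS_apply (q : S) (g : L.Gal) (a : G.AS S L.F) :
    tensEvS L q g a = towerEv L q.1 g (asPiEquiv L a q) := rfl

theorem tensEvS_tmul (q : S) (g : L.Gal) (x : L.F) (y : G.QS S) :
    tensEvS L q g (x ⊗ₜ[ℚ] y) =
      algebraMap ℚ_[(q.1 : ℕ)] (PadicAlgCl (q.1 : ℕ)) (G.QS.toPi S y q) *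
        padicEmbedding (q.1 : ℕ) ((g • x : L.F) : Qbar) := rfl

/-- `asPiEquiv` intertwines the action of `L.Gal` on `L.F ⊗ ℚ_S` with the componentwise
action on `∏ ℚ_q ⊗ L.F`. -/
theorem asPiEquiv_asAut (h : L.Gal) (a : G.AS S L.F) (q : S) :
    asPiEquiv L (G.asAut S L.Gal L.F h a) q = towerAct L q.1 h (asPiEquiv L a q) := by
  induction a using TensorProduct.induction_on with
  | zero =>
    rw [map_zero, map_zero, Pi.zero_apply]
    exact (map_zero (towerAct L q.1 h).toRingHom).symm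
  | add a b ha hb =>
    rw [map_add, map_add, Pi.add_apply, ha, hb, map_add, Pi.add_apply]
    exact (map_add (towerAct L q.1 h).toRingHom _ _).symm
  | tmul x y =>
    rw [G.asAut_tmul, asPiEquiv_tmul, asPiEquiv_tmul, towerAct_tmul]

theorem tensEvS_asAut (q : S) (g h : L.Gal) (a : G.AS S L.F) :
    tensEvS L q g (G.asAut S L.Gal L.F h a) = tensEvS L q (g * h) a := by
  rw [tensEvS_apply, tensEvS_apply, asPiEquiv_asAut, towerEv_towerAct]

/-- `Additive (∏ M_i) ≃+ ∏ Additive (M_i)`. -/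
def additivePiEquiv {ι : Type} (M : ι → Type) [∀ i, Monoid (M i)] :
    Additive (∀ i, M i) ≃+ (∀ i, Additive (M i)) where
  toFun f i := Additive.ofMul (f.toMul i)
  invFun f := Additive.ofMul (fun i => (f i).toMul)
  left_inv _ := rfl
  right_inv _ := rfl
  map_add' _ _ := rfl

/-- **TENS**: `(L.F ⊗[ℚ] ℚ_S)ˣ ≃ ∏_{q ∈ S} J_q(F)`. -/
def tensEquiv : Additive (G.AS S L.F)ˣ ≃+ (∀ q : S, (L.J q.1).V) :=
  ((MulEquiv.toAdditive (Units.mapEquiv (asPiEquiv L).toMulEquiv)).trans
    ((MulEquiv.toAdditive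
        (MulEquiv.piUnits (M := fun q : S => ℚ_[(q.1 : ℕ)] ⊗[ℚ] L.F))).trans
      (additivePiEquiv (fun q : S => (ℚ_[(q.1 : ℕ)] ⊗[ℚ] L.F)ˣ)))).trans
    (AddEquiv.piCongrRight (fun q : S => tensLocEquiv L q.1))

theorem locVal_tensEquiv (u : Additive (G.AS S L.F)ˣ) (q : S) (g : L.Gal) :
    locVal L q.1 ((tensEquiv L u q).1 g) =
      tensEvS L q g ((u.toMul : (G.AS S L.F)ˣ) : G.AS S L.F) := rfl

/-- Equivariance of `tensEquiv` for the layer-G action `G.jRepr` on the `S`-idèles. -/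
theorem tensEquiv_equivariant (h : L.Gal) (u : Additive (G.AS S L.F)ˣ) (q : S) :
    tensEquiv L (G.jRepr L.Gal S L.F h u) q = (L.J q.1).ρ h (tensEquiv L u q) := by
  apply J_ext
  intro g
  rw [locVal_tensEquiv, G.coe_jRepr_apply, tensEvS_asAut]
  rfl

/-- Compatibility with the diagonal embedding `Fˣ → J_S(F)`: the `q`-component of the image of
`x ∈ Fˣ` is the function `g ↦ ι(g x)`. -/
theorem tensEquiv_unitsDiag (x : Additive (L.F)ˣ) (q : S) (g : L.Gal) :
    locVal L q.1 ((tensEquiv L (G.unitsDiag S L.F x) q).1 g) =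
      padicEmbedding (q.1 : ℕ) ((g • ((x.toMul : (L.F)ˣ) : L.F) : L.F) : Qbar) := by
  rw [locVal_tensEquiv, G.coe_unitsDiag_apply, G.asDiag_apply, tensEvS_tmul]
  have h1 : G.QS.toPi S (1 : G.QS S) q = 1 := rfl
  rw [h1, map_one, one_mul]

/-! ### The same in `Rep ℤ L.Gal` -/

/-- The projection `J_S(F) → J_q(F)` as an intertwining map. -/
def tensProjMap (q : S) :
    (G.jRepr L.Gal S L.F).IntertwiningMap (Representation.coind (L.decHom q.1) (L.locUnits q.1).ρ)
    where
  toLinearMap :=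
    ((Pi.evalAddMonoidHom (fun q : S => (L.J q.1).V) q).comp
      (tensEquiv L).toAddMonoidHom).toIntLinearMap
  isIntertwining' := fun h => LinearMap.ext fun u => tensEquiv_equivariant L h u q

/-- The projection `J_S(F) → J_q(F)` in `Rep ℤ L.Gal`. -/
def tensProj (q : S) : G.JRep L.Gal S L.F ⟶ L.J q.1 := Rep.ofHom (tensProjMap L q)

theorem tensProj_apply (q : S) (u : Additive (G.AS S L.F)ˣ) :
    (tensProj L q).hom u = tensEquiv L u q := rfl

open Classical in
/-- The element of `J_S(F)` with `q`-component `f` and trivial other components. -/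
def tensInclFun (q : S) (f : (L.J q.1).V) : Additive (G.AS S L.F)ˣ :=
  (tensEquiv L).symm (Pi.single q f)

open Classical in
theorem tensEquiv_tensInclFun (q : S) (f : (L.J q.1).V) :
    tensEquiv L (tensInclFun L q f) = Pi.single q f :=
  (tensEquiv L).apply_symm_apply _

theorem tensEquiv_tensInclFun_same (q : S) (f : (L.J q.1).V) :
    tensEquiv L (tensInclFun L q f) q = f := by
  classical
  rw [tensEquiv_tensInclFun, Pi.single_eq_same]

theorem tensEquiv_tensInclFun_ne {q q' : S} (hq : q' ≠ q) (f : (L.J q.1).V) :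
    tensEquiv L (tensInclFun L q f) q' = 0 := by
  classical
  rw [tensEquiv_tensInclFun, Pi.single_eq_of_ne hq]

/-- The inclusion `J_q(F) → J_S(F)` as an intertwining map. -/
def tensInclMap (q : S) :
    (Representation.coind (L.decHom q.1) (L.locUnits q.1).ρ).IntertwiningMap
      (G.jRepr L.Gal S L.F) where
  toLinearMap := by
    classical
    exact (((tensEquiv L).symm.toAddMonoidHom).comp
      (AddMonoidHom.single (fun q : S => (L.J q.1).V) q)).toIntLinearMap
  isIntertwining' := fun h => LinearMap.ext fun f => by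
    classical
    apply (tensEquiv L).injective
    funext q'
    change tensEquiv L (tensInclFun L q ((L.J q.1).ρ h f)) q' =
      tensEquiv L (G.jRepr L.Gal S L.F h (tensInclFun L q f)) q'
    rw [tensEquiv_equivariant]
    by_cases hq : q' = q
    · subst hq
      rw [tensEquiv_tensInclFun_same, tensEquiv_tensInclFun_same]
    · rw [tensEquiv_tensInclFun_ne L hq, tensEquiv_tensInclFun_ne L hq, map_zero]

/-- The inclusion `J_q(F) → J_S(F)` in `Rep ℤ L.Gal`. -/
def tensIncl (q : S) : L.J q.1 ⟶ G.JRep L.Gal S L.F := Rep.ofHom (tensInclMap L q)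

theorem tensIncl_apply (q : S) (f : (L.J q.1).V) :
    (tensIncl L q).hom f = tensInclFun L q f := rfl

theorem tensProj_tensIncl_same (q : S) (f : (L.J q.1).V) :
    (tensProj L q).hom ((tensIncl L q).hom f) = f :=
  tensEquiv_tensInclFun_same L q f

theorem tensProj_tensIncl_ne {q q' : S} (hq : q' ≠ q) (f : (L.J q.1).V) :
    (tensProj L q').hom ((tensIncl L q).hom f) = 0 :=
  tensEquiv_tensInclFun_ne L hq f

theorem sum_tensInclFun (u : Additive (G.AS S L.F)ˣ) :
    ∑ q : S, tensInclFun L q (tensEquiv L u q) = u := by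
  classical
  apply (tensEquiv L).injective
  funext q'
  rw [map_sum, Finset.sum_apply]
  rw [Finset.sum_eq_single q']
  · exact tensEquiv_tensInclFun_same L q' _
  · intro q _ hq
    exact tensEquiv_tensInclFun_ne L (Ne.symm hq) _
  · intro h
    exact absurd (Finset.mem_univ q') h

theorem sum_tensIncl_tensProj (u : (G.JRep L.Gal S L.F).V) :
    ∑ q : S, (tensIncl L q).hom ((tensProj L q).hom u) = u :=
  sum_tensInclFun L u

/-- A family `(x_q)_{q ∈ S}`, `x_q ∈ J_q(F)`, is the family of components of a unique `S`-idèle. -/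
theorem existsUnique_idele (x : ∀ q : S, (L.J q.1).V) :
    ∃! u : Additive (G.AS S L.F)ˣ, ∀ q : S, (tensProj L q).hom u = x q :=
  ⟨(tensEquiv L).symm x, fun q => congrFun ((tensEquiv L).apply_symm_apply x) q,
    fun u hu => (tensEquiv L).injective (by
      rw [AddEquiv.apply_symm_apply]
      exact funext hu)⟩

end

end Fermat.Agent.S55.E1.H594
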